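import Mathlib

/-!
# Squares among the Fibonacci and Lucas numbers (Cohn 1964)

`F n = Nat.fib n`, `L n` the Lucas numbers (`L 0 = 2`, `L 1 = 1`).

* `fib_sq_iff` : `F n` is a square iff `n ∈ {0, 1, 2, 12}`;
* `fib_two_sq_iff` : `F n` is twice a square iff `n ∈ {0, 3, 6}`;
* `lucas_sq_iff` : `L n` is a square iff `n ∈ {1, 3}`;
* `lucas_two_sq_iff` : `L n` is twice a square iff `n ∈ {0, 6}`;
* `exists_lucas_abs` : `x² - 5 y² = ± 4` iff `|x| = L n`, `|y| = F n`; so the equations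
  `x² - 5 y⁴ = ± 4`, `x⁴ - 5 y² = ± 4`, `x² - 20 y⁴ = ± 4`, `4 x⁴ - 5 y² = ± 4` are solved
  (`quartic_one`, ..., `quartic_four`).
-/

set_option autoImplicit false

namespace Fermat.Agent.Cor.Cohn

/-- the Fibonacci numbers as integers -/
def F (n : ℕ) : ℤ := Nat.fib n

/-- the Lucas numbers -/
def L (n : ℕ) : ℤ := 2 * F (n + 1) - F n

theorem F_zero : F 0 = 0 := by simp [F]

theorem F_one : F 1 = 1 := by simp [F]

theorem F_two : F 2 = 1 := by simp [F]

theorem F_add_two (n : ℕ) : F (n + 2) = F (n + 1) + F n := by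
  rw [F, F, F, Nat.fib_add_two]
  push_cast
  ring

theorem F_add (m n : ℕ) : F (m + n) = F m * F (n + 1) + F (m + 1) * F n - F m * F n := by
  have h := Nat.fib_add m n
  have h1 : F (m + n + 1) = F m * F n + F (m + 1) * F (n + 1) := by
    rw [F, h]
    push_cast
    rfl
  have h' := Nat.fib_add (m + 1) n
  have h2 : F (m + n + 2) = F (m + 1) * F n + F (m + 2) * F (n + 1) := by
    have : m + n + 2 = m + 1 + n + 1 := by ring
    rw [F, this, h']
    push_cast
    rfl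
  have h3 := F_add_two (m + n)
  rw [h1, h2, F_add_two] at h3
  linarith

theorem F_add_one (m n : ℕ) : F (m + n + 1) = F m * F n + F (m + 1) * F (n + 1) := by
  rw [F, Nat.fib_add m n]
  push_cast
  rfl

/-- Cassini -/
theorem cassini (n : ℕ) : F (n + 1) ^ 2 - F (n + 1) * F n - F n ^ 2 = (-1) ^ n := by
  induction n with
  | zero => rw [F_one, F_zero]; norm_num
  | succ n ih =>
    rw [F_add_two, pow_succ (-1 : ℤ) n, ← ih]
    ring

theorem L_sq (n : ℕ) : L n ^ 2 - 5 * F n ^ 2 = 4 * (-1) ^ n := by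
  rw [← cassini, L]
  ring

theorem L_add_one (n : ℕ) : L (n + 1) = F (n + 1) + 2 * F n := by
  rw [L, F_add_two]
  ring

/-- `F (2 n) = F n L n` -/
theorem F_two_mul (n : ℕ) : F (n + n) = F n * L n := by
  rw [F_add, L]
  ring

/-- `L (m + 2 j) = L (m + j) L j - (-1)^j L m` -/
theorem L_rec (m j : ℕ) : L (m + j + j) = L (m + j) * L j - (-1) ^ j * L m := by
  rw [← cassini, L, L, L, L, F_add_one (m + j) j, F_add (m + j) j, F_add_one m j, F_add m j]
  ring

/-- `F (m + 2 j) = F (m + j) L j - (-1)^j F m` -/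
theorem F_rec (m j : ℕ) : F (m + j + j) = F (m + j) * L j - (-1) ^ j * F m := by
  rw [← cassini, L, F_add (m + j) j, F_add_one m j, F_add m j]
  ring

/-- `F (m + 2 j) = L (m + j) F j + (-1)^j F m` -/
theorem F_rec' (m j : ℕ) : F (m + j + j) = L (m + j) * F j + (-1) ^ j * F m := by
  rw [← cassini, L, F_add (m + j) j, F_add_one m j, F_add m j]
  ring

/-! ### Congruences -/

theorem L_add_six (n : ℕ) : L (n + 6) = 8 * L (n + 1) + 5 * L n := by
  simp only [L, F_add_two]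
  ring

theorem L_add_four (n : ℕ) : L (n + 4) = 3 * L (n + 1) + 2 * L n := by
  simp only [L, F_add_two]
  ring

theorem L_zero : L 0 = 2 := by rw [L, F_one, F_zero]; norm_num

theorem L_one : L 1 = 1 := by rw [L, F_two, F_one]; norm_num

theorem L_two : L 2 = 3 := by rw [L_add_one, F_two, F_one]; norm_num

theorem L_three : L 3 = 4 := by
  rw [L_add_one, F_add_two, F_two, F_one]; norm_num

theorem L_four : L 4 = 7 := by
  rw [L_add_four, L_one, L_zero]; norm_num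

theorem L_six : L 6 = 18 := by
  rw [L_add_six, L_one, L_zero]; norm_num

/-- `L k ≡ 3 mod 4` for `k` even, prime to `3` -/
theorem L_mod_four {k : ℕ} (h : k % 6 = 2 ∨ k % 6 = 4) : L k % 4 = 3 := by
  have key : ∀ j : ℕ, L (6 * j + 2) % 4 = 3 ∧ L (6 * j + 4) % 4 = 3 := by
    intro j
    induction j with
    | zero =>
      rw [mul_zero, zero_add, zero_add, L_two, L_four]
      norm_num
    | succ j ih =>
      have h1 := L_add_six (6 * j + 2)
      have h2 := L_add_six (6 * j + 4)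
      rw [show 6 * (j + 1) + 2 = 6 * j + 2 + 6 by ring, show 6 * (j + 1) + 4 = 6 * j + 4 + 6 by ring]
      omega
  rcases h with h | h
  · have := (key (k / 6)).1
    rwa [show 6 * (k / 6) + 2 = k by omega] at this
  · have := (key (k / 6)).2
    rwa [show 6 * (k / 6) + 4 = k by omega] at this

/-- `L n ≡ 4 mod 8` for `n ≡ 3 mod 6` -/
theorem L_mod_eight {n : ℕ} (h : n % 6 = 3) : L n % 8 = 4 := by
  have key : ∀ j : ℕ, L (6 * j + 3) % 8 = 4 := by
    intro j
    induction j with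
    | zero =>
      rw [mul_zero, zero_add, L_three]
      norm_num
    | succ j ih =>
      have h1 := L_add_six (6 * j + 3)
      rw [show 6 * (j + 1) + 3 = 6 * j + 3 + 6 by ring]
      omega
  have := key (n / 6)
  rwa [show 6 * (n / 6) + 3 = n by omega] at this

/-- `3 ∤ L k` for `4 ∣ k` -/
theorem L_mod_three {k : ℕ} (h : k % 4 = 0) : L k % 3 = 1 ∨ L k % 3 = 2 := by
  have key : ∀ j : ℕ, L (4 * j) % 3 = 1 ∨ L (4 * j) % 3 = 2 := by
    intro j
    induction j with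
    | zero =>
      rw [mul_zero, L_zero]
      norm_num
    | succ j ih =>
      have h1 := L_add_four (4 * j)
      rw [show 4 * (j + 1) = 4 * j + 4 by ring]
      omega
  have := key (k / 4)
  rwa [show 4 * (k / 4) = k by omega] at this

/-- parity -/
theorem parity (n : ℕ) : (n % 3 = 0 → F n % 2 = 0) ∧ (n % 3 ≠ 0 → F n % 2 = 1) := by
  have key : ∀ j : ℕ, F (3 * j) % 2 = 0 ∧ F (3 * j + 1) % 2 = 1 ∧ F (3 * j + 2) % 2 = 1 := by
    intro j
    induction j with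
    | zero =>
      rw [mul_zero, zero_add, zero_add, F_zero, F_one, F_two]
      norm_num
    | succ j ih =>
      have h1 : F (3 * j + 3) = F (3 * j + 2) + F (3 * j + 1) := F_add_two (3 * j + 1)
      have h2 : F (3 * j + 4) = F (3 * j + 3) + F (3 * j + 2) := F_add_two (3 * j + 2)
      have h3 : F (3 * j + 5) = F (3 * j + 4) + F (3 * j + 3) := F_add_two (3 * j + 3)
      rw [show 3 * (j + 1) = 3 * j + 3 by ring]
      change F (3 * j + 3) % 2 = 0 ∧ F (3 * j + 4) % 2 = 1 ∧ F (3 * j + 5) % 2 = 1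
      omega
  obtain ⟨h1, h2, h3⟩ := key (n / 3)
  refine ⟨fun h => ?_, fun h => ?_⟩
  · rwa [show 3 * (n / 3) = n by omega] at h1
  · have : n % 3 = 1 ∨ n % 3 = 2 := by omega
    rcases this with h' | h'
    · rwa [show 3 * (n / 3) + 1 = n by omega] at h2
    · rwa [show 3 * (n / 3) + 2 = n by omega] at h3

theorem L_mod_two (n : ℕ) : L n % 2 = F n % 2 := by
  rw [L]
  omega

/-! ### Divisibility -/

theorem L_dvd_three_mul (k : ℕ) : L k ∣ L (3 * k) := by
  have h := L_rec k k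
  rw [show k + k + k = 3 * k by ring] at h
  rw [h]
  exact dvd_sub (dvd_mul_left _ _) (dvd_mul_left _ _)

theorem L_dvd_pow (k r : ℕ) : L k ∣ L (3 ^ r * k) := by
  induction r with
  | zero => rw [pow_zero, one_mul]
  | succ r ih =>
    rw [pow_succ', mul_assoc]
    exact ih.trans (L_dvd_three_mul _)

theorem F_nonneg (n : ℕ) : 0 ≤ F n := Int.natCast_nonneg _

theorem F_mono (n : ℕ) : F n ≤ F (n + 1) := by
  rw [F, F]
  exact_mod_cast Nat.fib_le_fib_succ

theorem L_pos (n : ℕ) : 0 < L n := by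
  rw [L]
  have h1 := F_mono n
  have h2 : 0 < F (n + 1) := by
    rw [F]
    exact_mod_cast Nat.fib_pos.mpr (Nat.succ_pos n)
  linarith

/-- `x² + c²` is not divisible by a number `≡ 3 mod 4` prime to `c`. -/
theorem no_dvd {M x c : ℤ} (hM : 0 < M) (h3 : M % 4 = 3) (hc : IsCoprime M c)
    (h : M ∣ x ^ 2 + c ^ 2) : False := by
  obtain ⟨m, rfl⟩ := Int.eq_ofNat_of_zero_le hM.le
  have hu : IsUnit (c : ZMod m) := by
    obtain ⟨a, b, hab⟩ := hc
    refine isUnit_iff_exists_inv.mpr ⟨b, ?_⟩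
    have := congrArg (Int.cast : ℤ → ZMod m) hab
    push_cast at this
    rw [ZMod.natCast_self, mul_zero, zero_add] at this
    rw [mul_comm]
    exact this
  have h1 : (x : ZMod m) ^ 2 + (c : ZMod m) ^ 2 = 0 := by
    have := (ZMod.intCast_zmod_eq_zero_iff_dvd (x ^ 2 + c ^ 2) m).mpr h
    push_cast at this
    exact this
  obtain ⟨u, hu⟩ := hu
  have h2 : IsSquare (-1 : ZMod m) := by
    refine ⟨x * ((u⁻¹ : (ZMod m)ˣ) : ZMod m), ?_⟩
    have h3 : (u : ZMod m) * ((u⁻¹ : (ZMod m)ˣ) : ZMod m) = 1 := Units.mul_inv u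
    rw [← hu] at h1
    have h4 : (x : ZMod m) ^ 2 = -(u : ZMod m) ^ 2 := eq_neg_of_add_eq_zero_left h1
    calc (-1 : ZMod m) = -((u : ZMod m) * ((u⁻¹ : (ZMod m)ˣ) : ZMod m)) ^ 2 := by rw [h3, one_pow]
      _ = (-(u : ZMod m) ^ 2) * ((u⁻¹ : (ZMod m)ˣ) : ZMod m) ^ 2 := by ring
      _ = _ := by rw [← h4]; ring
  obtain ⟨a, b, hab⟩ := Nat.eq_sq_add_sq_of_isSquare_mod_neg_one h2
  have h5 : ∀ t : ℕ, t ^ 2 % 4 = 0 ∨ t ^ 2 % 4 = 1 := by
    intro t
    rcases Nat.even_or_odd' t with ⟨k, hk | hk⟩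
    · left
      rw [hk, show (2 * k) ^ 2 = 4 * k ^ 2 by ring]
      omega
    · right
      rw [hk, show (2 * k + 1) ^ 2 = 4 * (k ^ 2 + k) + 1 by ring]
      omega
  have h6 := h5 a
  have h7 := h5 b
  omega

/-- Decomposition of a multiple of `4`. -/
theorem exists_decomp {N : ℕ} (hN : N ≠ 0) (h4 : 4 ∣ N) : ∃ r k : ℕ, N = 2 * (3 ^ r * k) ∧
    (k % 6 = 2 ∨ k % 6 = 4) ∧ (8 ∣ N → k % 4 = 0) := by
  obtain ⟨M, rfl⟩ : 2 ∣ N := (by norm_num : 2 ∣ 4).trans h4
  have hM : M ≠ 0 := by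
    rintro rfl
    exact hN rfl
  obtain ⟨r, k, hk3, hk⟩ := Nat.exists_eq_pow_mul_and_not_dvd hM 3 (by norm_num)
  have hM2 : 2 ∣ M := by omega
  have hco : ∀ j : ℕ, Nat.Coprime (2 ^ j) (3 ^ r) := fun j =>
    Nat.Coprime.pow _ _ (by norm_num)
  have hk2 : 2 ∣ k := by
    rw [hk] at hM2
    have := (hco 1).dvd_of_dvd_mul_left (by simpa using hM2)
    simpa using this
  refine ⟨r, k, by rw [hk], by omega, fun h8 => ?_⟩
  have hM4 : 2 ^ 2 ∣ M := by omega
  rw [hk] at hM4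
  have := (hco 2).dvd_of_dvd_mul_left hM4
  omega

theorem even_of_mod {k r : ℕ} (h : k % 6 = 2 ∨ k % 6 = 4) : ((-1 : ℤ)) ^ (3 ^ r * k) = 1 := by
  have : Even (3 ^ r * k) := by
    have h2 : Even k := by
      rw [Nat.even_iff]
      omega
    exact h2.mul_left _
  exact this.neg_one_pow

/-- The key: `L n` for `n = m + 2 · 3^r k`, modulo `L k`. -/
theorem L_key {m n : ℕ} (h : m < n) (h4 : 4 ∣ n - m) : ∃ k : ℕ, (k % 6 = 2 ∨ k % 6 = 4) ∧
    (8 ∣ n - m → k % 4 = 0) ∧ L k ∣ L n + L m ∧ L k ∣ F n + F m := by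
  obtain ⟨r, k, hN, hk, hk4⟩ := exists_decomp (by omega) h4
  have hn : n = m + 3 ^ r * k + 3 ^ r * k := by omega
  have hd := L_dvd_pow k r
  refine ⟨k, hk, hk4, ?_, ?_⟩
  · rw [hn, L_rec, even_of_mod hk, one_mul, sub_add_cancel]
    exact hd.mul_left _
  · rw [hn, F_rec, even_of_mod hk, one_mul, sub_add_cancel]
    exact hd.mul_left _

/-- The key for negative indices: `n + m = 2 · 3^r k`. -/
theorem L_key' {m n : ℕ} (h : m ≤ n) (h4 : 4 ∣ n + m) (hn : n + m ≠ 0) : ∃ k : ℕ,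
    (k % 6 = 2 ∨ k % 6 = 4) ∧ (8 ∣ n + m → k % 4 = 0) ∧ L k ∣ L n + (-1) ^ m * L m ∧
      L k ∣ F n - (-1) ^ m * F m := by
  obtain ⟨r, k, hN, hk, hk4⟩ := exists_decomp hn h4
  obtain ⟨j, hj⟩ : ∃ j, 3 ^ r * k = m + j := ⟨3 ^ r * k - m, by omega⟩
  have hn : n = m + j + j := by omega
  have hd := L_dvd_pow k r
  rw [hj] at hd
  have hsign : ((-1 : ℤ)) ^ j = (-1) ^ m := by
    have h1 : ((-1 : ℤ)) ^ (m + j) = 1 := by rw [← hj]; exact even_of_mod hk
    rw [pow_add] at h1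
    rcases neg_one_pow_eq_or ℤ m with h2 | h2 <;> rcases neg_one_pow_eq_or ℤ j with h3 | h3 <;>
      rw [h2, h3] at h1 ⊢ <;> norm_num at h1
  refine ⟨k, hk, hk4, ?_, ?_⟩
  · rw [hn, L_rec, hsign, sub_add_cancel]
    exact hd.mul_right _
  · rw [hn, F_rec', hsign, add_sub_cancel_right]
    exact hd.mul_right _

/-! ### The Lucas numbers -/

theorem sq_mod_four (x : ℤ) : x ^ 2 % 4 = 0 ∨ x ^ 2 % 4 = 1 := by
  rcases Int.even_or_odd' x with ⟨k, hk | hk⟩
  · left
    rw [hk, show (2 * k) ^ 2 = 4 * k ^ 2 by ring]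
    omega
  · right
    rw [hk, show (2 * k + 1) ^ 2 = 4 * (k ^ 2 + k) + 1 by ring]
    omega

theorem coprime_two {M : ℤ} (h : M % 4 = 3) : IsCoprime M 2 :=
  (Int.isCoprime_two_right).mpr (Int.odd_iff.mpr (by omega))

theorem coprime_six {M : ℤ} (h : M % 4 = 3) (h3 : M % 3 = 1 ∨ M % 3 = 2) : IsCoprime M 6 := by
  have h1 : IsCoprime M 3 := by
    rw [Int.isCoprime_iff_gcd_eq_one, Int.gcd_comm]
    refine (Nat.Prime.coprime_iff_not_dvd (p := 3) Nat.prime_three).mpr fun hd => ?_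
    have : (3 : ℤ) ∣ M := Int.natCast_dvd.mpr hd
    omega
  have := (coprime_two h).mul_right h1
  norm_num at this
  exact this

theorem lucas_sq {n : ℕ} {x : ℤ} (h : L n = x ^ 2) : n = 1 ∨ n = 3 := by
  have hn : n % 2 = 0 ∨ n % 4 = 1 ∨ n % 4 = 3 := by omega
  rcases hn with hn | hn | hn
  · exfalso
    obtain ⟨m, rfl⟩ : ∃ m, n = m + m := ⟨n / 2, by omega⟩
    have h1 := L_rec 0 m
    rw [zero_add, L_zero, h] at h1
    have h2 := sq_mod_four x
    have h3 := sq_mod_four (L m)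
    rcases neg_one_pow_eq_or ℤ m with h4 | h4 <;> rw [h4] at h1
    · have h5 : x ^ 2 = L m ^ 2 - 2 := by rw [h1]; ring
      omega
    · have h5 : x ^ 2 = L m ^ 2 + 2 := by rw [h1]; ring
      omega
  · left
    by_contra hne
    obtain ⟨k, hk, -, hd, -⟩ := L_key (m := 1) (n := n) (by omega) (by omega)
    rw [h, L_one] at hd
    exact no_dvd (x := x) (c := 1) (L_pos k) (L_mod_four hk) isCoprime_one_right (by simpa using hd)
  · right
    by_contra hne
    obtain ⟨k, hk, -, hd, -⟩ := L_key (m := 3) (n := n) (by omega) (by omega)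
    rw [h, L_three] at hd
    exact no_dvd (x := x) (c := 2) (L_pos k) (L_mod_four hk) (coprime_two (L_mod_four hk))
      (by norm_num; exact hd)

theorem lucas_two_sq {n : ℕ} {x : ℤ} (h : L n = 2 * x ^ 2) : n = 0 ∨ n = 6 := by
  have h3 : n % 3 = 0 := by
    by_contra h3
    have h1 := (parity n).2 h3
    have h2 := L_mod_two n
    omega
  have hn : n % 6 = 3 ∨ n % 4 = 0 ∨ n % 8 = 6 ∨ n % 8 = 2 := by omega
  rcases hn with hn | hn | hn | hn
  · exfalso
    have h1 := L_mod_eight hn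
    have h2 := sq_mod_four x
    omega
  · left
    by_contra hne
    obtain ⟨k, hk, -, hd, -⟩ := L_key (m := 0) (n := n) (by omega) (by omega)
    rw [h, L_zero] at hd
    refine no_dvd (x := 2 * x) (c := 2) (L_pos k) (L_mod_four hk) (coprime_two (L_mod_four hk)) ?_
    rw [show (2 * x) ^ 2 + 2 ^ 2 = 2 * (2 * x ^ 2 + 2) by ring]
    exact hd.mul_left 2
  · right
    by_contra hne
    obtain ⟨k, hk, hk4, hd, -⟩ := L_key (m := 6) (n := n) (by omega) (by omega)
    rw [h, L_six] at hd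
    refine no_dvd (x := 2 * x) (c := 6) (L_pos k) (L_mod_four hk)
      (coprime_six (L_mod_four hk) (L_mod_three (hk4 (by omega)))) ?_
    rw [show (2 * x) ^ 2 + 6 ^ 2 = 2 * (2 * x ^ 2 + 18) by ring]
    exact hd.mul_left 2
  · exfalso
    obtain ⟨k, hk, hk4, hd, -⟩ := L_key' (m := 6) (n := n) (by omega) (by omega) (by omega)
    rw [h, L_six] at hd
    refine no_dvd (x := 2 * x) (c := 6) (L_pos k) (L_mod_four hk)
      (coprime_six (L_mod_four hk) (L_mod_three (hk4 (by omega)))) ?_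
    rw [show (2 * x) ^ 2 + 6 ^ 2 = 2 * (2 * x ^ 2 + (-1) ^ 6 * 18) by ring]
    exact hd.mul_left 2

/-! ### The Fibonacci numbers -/

theorem sq_of_pos {a b c : ℤ} (h : IsCoprime a b) (heq : a * b = c ^ 2) (ha : 0 < a)
    (hb : 0 < b) : ∃ s t : ℤ, a = s ^ 2 ∧ b = t ^ 2 := by
  have key : ∀ {a b : ℤ}, IsCoprime a b → a * b = c ^ 2 → 0 < a → ∃ s : ℤ, a = s ^ 2 := by
    intro a b h heq ha
    obtain ⟨s, hs | hs⟩ := Int.sq_of_isCoprime h heq
    · exact ⟨s, hs⟩
    · exfalso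
      nlinarith [sq_nonneg s]
  obtain ⟨s, hs⟩ := key h heq ha
  obtain ⟨t, ht⟩ := key h.symm (by rw [mul_comm]; exact heq) hb
  exact ⟨s, t, hs, ht⟩

theorem two_sq_of_pos {a b c : ℤ} (h : IsCoprime a b) (heq : a * b = 2 * c ^ 2) (ha : 0 < a)
    (hb : 0 < b) : (∃ s t : ℤ, a = 2 * s ^ 2 ∧ b = t ^ 2) ∨ ∃ s t : ℤ, a = s ^ 2 ∧ b = 2 * t ^ 2 := by
  have h2 : (2 : ℤ) ∣ a * b := ⟨c ^ 2, heq⟩
  rcases Int.prime_two.dvd_or_dvd h2 with ⟨a', rfl⟩ | ⟨b', rfl⟩
  · left
    have h1 : a' * b = c ^ 2 := by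
      have : (2 : ℤ) * (a' * b) = 2 * c ^ 2 := by linear_combination heq
      exact mul_left_cancel₀ (by norm_num) this
    obtain ⟨s, t, hs, ht⟩ := sq_of_pos (h.of_isCoprime_of_dvd_left (Dvd.intro_left _ rfl)) h1
      (by omega) hb
    exact ⟨s, t, by rw [hs], ht⟩
  · right
    have h1 : a * b' = c ^ 2 := by
      have : (2 : ℤ) * (a * b') = 2 * c ^ 2 := by linear_combination heq
      exact mul_left_cancel₀ (by norm_num) this
    obtain ⟨s, t, hs, ht⟩ := sq_of_pos (h.of_isCoprime_of_dvd_right (Dvd.intro_left _ rfl)) h1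
      ha (by omega)
    exact ⟨s, t, hs, by rw [ht]⟩

/-- For `3 ∣ j` the halves of `F j`, `L j` are coprime. -/
theorem exists_halves {j : ℕ} (h3 : j % 3 = 0) : ∃ a b : ℤ, F j = 2 * a ∧ L j = 2 * b ∧
    IsCoprime a b := by
  have h1 := (parity j).1 h3
  have h2 := L_mod_two j
  refine ⟨F j / 2, L j / 2, by omega, by omega, ?_⟩
  obtain ⟨a, ha⟩ : ∃ a, F j = 2 * a := ⟨F j / 2, by omega⟩
  obtain ⟨b, hb⟩ : ∃ b, L j = 2 * b := ⟨L j / 2, by omega⟩
  have h := L_sq j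
  rw [ha, hb]
  rw [Int.mul_ediv_cancel_left _ (by norm_num), Int.mul_ediv_cancel_left _ (by norm_num)]
  rw [ha, hb] at h
  have h4 : b ^ 2 - 5 * a ^ 2 = (-1) ^ j := by linarith
  rcases neg_one_pow_eq_or ℤ j with h5 | h5 <;> rw [h5] at h4
  · exact ⟨-5 * a, b, by linear_combination h4⟩
  · exact ⟨5 * a, -b, by linear_combination -h4⟩

theorem coprime_of_mod {j : ℕ} (h3 : j % 3 ≠ 0) : IsCoprime (F j) (L j) := by
  have h1 := (parity j).2 h3
  have h := L_sq j
  obtain ⟨k, hk⟩ : ∃ k, F j = 2 * k + 1 := ⟨F j / 2, by omega⟩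
  have h2 : IsCoprime (F j) 4 := ⟨F j * (1 - 4 * (k ^ 2 + k)), 4 * (k ^ 2 + k) ^ 2, by
    rw [hk]
    ring⟩
  obtain ⟨u, v, huv⟩ := h2
  rcases neg_one_pow_eq_or ℤ j with h5 | h5 <;> rw [h5] at h
  · exact ⟨u - 5 * v * F j, v * L j, by linear_combination huv + v * h⟩
  · exact ⟨u + 5 * v * F j, -(v * L j), by linear_combination huv - v * h⟩

theorem F_pos {n : ℕ} (h : n ≠ 0) : 0 < F n := by
  rw [F]
  exact_mod_cast Nat.fib_pos.mpr (Nat.pos_of_ne_zero h)

theorem F_three : F 3 = 2 := by rw [F_add_two, F_two, F_one]; norm_num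

theorem F_six : F 6 = 8 := by
  rw [F]
  norm_num [Nat.fib_add_two]

theorem fib_sq {n : ℕ} {x : ℤ} (h : F n = x ^ 2) : n = 0 ∨ n = 1 ∨ n = 2 ∨ n = 12 := by
  have hn : n % 2 = 0 ∨ n % 4 = 1 ∨ n % 4 = 3 := by omega
  rcases hn with hn | hn | hn
  · obtain ⟨j, rfl⟩ : ∃ j, n = j + j := ⟨n / 2, by omega⟩
    rcases Nat.eq_zero_or_pos j with rfl | hj
    · left
      rfl
    rw [F_two_mul] at h
    have hF := F_pos hj.ne'
    have hL := L_pos j
    by_cases h3 : j % 3 = 0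
    · obtain ⟨a, b, ha, hb, hco⟩ := exists_halves h3
      rw [ha, hb] at h
      have hx : (2 : ℤ) ∣ x := Int.prime_two.dvd_of_dvd_pow (n := 2) ⟨2 * (a * b), by rw [← h]; ring⟩
      obtain ⟨y, rfl⟩ := hx
      obtain ⟨s, t, -, ht⟩ := sq_of_pos (c := y) hco (by linarith) (by linarith) (by linarith)
      rw [ht] at hb
      have := lucas_two_sq hb
      omega
    · obtain ⟨s, t, -, ht⟩ := sq_of_pos (coprime_of_mod h3) h hF hL
      have := lucas_sq ht
      omega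
  · right; left
    by_contra hne
    obtain ⟨k, hk, -, -, hd⟩ := L_key (m := 1) (n := n) (by omega) (by omega)
    rw [h, F_one] at hd
    exact no_dvd (x := x) (c := 1) (L_pos k) (L_mod_four hk) isCoprime_one_right (by simpa using hd)
  · exfalso
    obtain ⟨k, hk, -, -, hd⟩ := L_key' (m := 1) (n := n) (by omega) (by omega) (by omega)
    rw [h, F_one] at hd
    exact no_dvd (x := x) (c := 1) (L_pos k) (L_mod_four hk) isCoprime_one_right (by simpa using hd)

theorem fib_two_sq {n : ℕ} {x : ℤ} (h : F n = 2 * x ^ 2) : n = 0 ∨ n = 3 ∨ n = 6 := by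
  have h3 : n % 3 = 0 := by
    by_contra h3
    have h1 := (parity n).2 h3
    omega
  have hn : n % 2 = 0 ∨ n % 4 = 1 ∨ n % 4 = 3 := by omega
  rcases hn with hn | hn | hn
  · obtain ⟨j, rfl⟩ : ∃ j, n = j + j := ⟨n / 2, by omega⟩
    rcases Nat.eq_zero_or_pos j with rfl | hj
    · left
      rfl
    rw [F_two_mul] at h
    have hF := F_pos hj.ne'
    have hL := L_pos j
    obtain ⟨a, b, ha, hb, hco⟩ := exists_halves (j := j) (by omega)
    rw [ha, hb] at h
    have hx : (2 : ℤ) ∣ x := Int.prime_two.dvd_of_dvd_pow (n := 2) ⟨a * b, by linarith⟩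
    obtain ⟨y, rfl⟩ := hx
    rcases two_sq_of_pos (c := y) hco (by linarith) (by linarith) (by linarith) with
      ⟨s, t, hs, ht⟩ | ⟨s, t, hs, ht⟩
    · rw [ht] at hb
      rcases lucas_two_sq hb with h4 | h4
      · omega
      · exfalso
        rw [h4, F_six, hs] at ha
        have h5 : s ^ 2 = 2 := by linarith
        have h6 := sq_mod_four s
        omega
    · have h4 : L j = (2 * t) ^ 2 := by rw [hb, ht]; ring
      have := lucas_sq h4
      omega
  · exfalso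
    obtain ⟨k, hk, -, -, hd⟩ := L_key' (m := 3) (n := n) (by omega) (by omega) (by omega)
    rw [h, F_three] at hd
    refine no_dvd (x := 2 * x) (c := 2) (L_pos k) (L_mod_four hk) (coprime_two (L_mod_four hk)) ?_
    rw [show (2 * x) ^ 2 + 2 ^ 2 = 2 * (2 * x ^ 2 - (-1) ^ 3 * 2) by ring]
    exact hd.mul_left 2
  · right; left
    by_contra hne
    obtain ⟨k, hk, -, -, hd⟩ := L_key (m := 3) (n := n) (by omega) (by omega)
    rw [h, F_three] at hd
    refine no_dvd (x := 2 * x) (c := 2) (L_pos k) (L_mod_four hk) (coprime_two (L_mod_four hk)) ?_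
    rw [show (2 * x) ^ 2 + 2 ^ 2 = 2 * (2 * x ^ 2 + 2) by ring]
    exact hd.mul_left 2

/-! ### The theorems -/

theorem F_twelve : F 12 = 144 := by
  rw [F]
  norm_num [Nat.fib_add_two]

/-- **Cohn (1964)**: the Fibonacci number `F n` is a square iff `n ∈ {0, 1, 2, 12}`
(`F 12 = 144`). -/
theorem fib_sq_iff (n : ℕ) : IsSquare (Nat.fib n) ↔ n = 0 ∨ n = 1 ∨ n = 2 ∨ n = 12 := by
  constructor
  · rintro ⟨x, hx⟩
    refine fib_sq (x := x) ?_
    rw [F, hx]
    push_cast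
    ring
  · rintro (rfl | rfl | rfl | rfl)
    · exact ⟨0, rfl⟩
    · exact ⟨1, rfl⟩
    · exact ⟨1, rfl⟩
    · exact ⟨12, by norm_num [Nat.fib_add_two]⟩

/-- **Cohn (1964)**: `F n` is twice a square iff `n ∈ {0, 3, 6}`. -/
theorem fib_two_sq_iff (n : ℕ) : (∃ x : ℕ, Nat.fib n = 2 * x ^ 2) ↔ n = 0 ∨ n = 3 ∨ n = 6 := by
  constructor
  · rintro ⟨x, hx⟩
    refine fib_two_sq (x := x) ?_
    rw [F, hx]
    push_cast
    ring
  · rintro (rfl | rfl | rfl)
    · exact ⟨0, rfl⟩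
    · exact ⟨1, rfl⟩
    · exact ⟨2, by norm_num [Nat.fib_add_two]⟩

/-- **Cohn (1964)**: the Lucas number `L n` is a square iff `n ∈ {1, 3}`. -/
theorem lucas_sq_iff (n : ℕ) : IsSquare (L n) ↔ n = 1 ∨ n = 3 := by
  constructor
  · rintro ⟨x, hx⟩
    exact lucas_sq (x := x) (by rw [hx]; ring)
  · rintro (rfl | rfl)
    · exact ⟨1, by rw [L_one]; norm_num⟩
    · exact ⟨2, by rw [L_three]; norm_num⟩

/-- **Cohn (1964)**: the Lucas number `L n` is twice a square iff `n ∈ {0, 6}`. -/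
theorem lucas_two_sq_iff (n : ℕ) : (∃ x : ℤ, L n = 2 * x ^ 2) ↔ n = 0 ∨ n = 6 := by
  constructor
  · rintro ⟨x, hx⟩
    exact lucas_two_sq hx
  · rintro (rfl | rfl)
    · exact ⟨1, by rw [L_zero]; norm_num⟩
    · exact ⟨3, by rw [L_six]; norm_num⟩

/-- The solutions of `x² - 5 y² = ± 4` are the pairs `(L n, F n)`. -/
theorem exists_lucas : ∀ (N : ℕ) (x y : ℤ), y.toNat = N → 0 ≤ x → 0 ≤ y →
    (x ^ 2 - 5 * y ^ 2 = 4 ∨ x ^ 2 - 5 * y ^ 2 = -4) → ∃ n, x = L n ∧ y = F n := by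
  intro N
  induction N using Nat.strong_induction_on with
  | _ N ih =>
    intro x y hN hx hy h
    rcases (show y = 0 ∨ y = 1 ∨ 2 ≤ y by omega) with rfl | rfl | hy2
    · refine ⟨0, ?_, F_zero.symm⟩
      rw [L_zero]
      have h1 : x ≤ 2 := by rcases h with h | h <;> nlinarith
      interval_cases x <;> omega
    · have h1 : x ≤ 3 := by rcases h with h | h <;> nlinarith
      have h2 : x = 1 ∨ x = 3 := by interval_cases x <;> omega
      rcases h2 with rfl | rfl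
      · exact ⟨1, L_one.symm, F_one.symm⟩
      · exact ⟨2, L_two.symm, F_two.symm⟩
    · have h1 : y < x := by
        by_contra hcon
        push Not at hcon
        rcases h with h | h <;> nlinarith
      have h2 : x < 3 * y := by
        by_contra hcon
        push Not at hcon
        rcases h with h | h <;> nlinarith
      have hpar : x % 2 = y % 2 := by
        have hs : ∀ t : ℤ, t ^ 2 % 2 = t % 2 := by
          intro t
          rcases Int.even_or_odd' t with ⟨k, hk | hk⟩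
          · rw [hk, show (2 * k) ^ 2 = 2 * (2 * k ^ 2) by ring]
            omega
          · rw [hk, show (2 * k + 1) ^ 2 = 2 * (2 * k ^ 2 + 2 * k) + 1 by ring]
            omega
        have h3 := hs x
        have h4 := hs y
        omega
      obtain ⟨x', hx'⟩ : ∃ x', 5 * y - x = 2 * x' := ⟨(5 * y - x) / 2, by omega⟩
      obtain ⟨y', hy'⟩ : ∃ y', x - y = 2 * y' := ⟨(x - y) / 2, by omega⟩
      have key : x' ^ 2 - 5 * y' ^ 2 = -(x ^ 2 - 5 * y ^ 2) := by
        have e : 4 * (x' ^ 2 - 5 * y' ^ 2) = 4 * -(x ^ 2 - 5 * y ^ 2) := by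
          have e1 : 4 * (x' ^ 2 - 5 * y' ^ 2) = (2 * x') ^ 2 - 5 * (2 * y') ^ 2 := by ring
          rw [e1, ← hx', ← hy']
          ring
        linarith
      obtain ⟨n, hn1, hn2⟩ := ih y'.toNat (by omega) x' y' rfl (by omega) (by omega) (by
        rw [key]
        rcases h with h | h
        · right; rw [h]
        · left; rw [h]; norm_num)
      refine ⟨n + 1, ?_, ?_⟩
      · have h3 : L n = 2 * F (n + 1) - F n := rfl
        rw [L_add_one]
        linarith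
      · have h3 : L n = 2 * F (n + 1) - F n := rfl
        linarith

theorem exists_lucas_abs {x y : ℤ} (h : x ^ 2 - 5 * y ^ 2 = 4 ∨ x ^ 2 - 5 * y ^ 2 = -4) :
    ∃ n, |x| = L n ∧ |y| = F n :=
  exists_lucas _ |x| |y| rfl (abs_nonneg x) (abs_nonneg y) (by rwa [sq_abs, sq_abs])

theorem natAbs_cases {y : ℤ} {c : ℤ} (hc : 0 ≤ c) (h : y ^ 2 = c ^ 2) : |y| = c := by
  rw [← abs_of_nonneg hc]
  exact (sq_eq_sq_iff_abs_eq_abs y c).mp h

/-- **The equations `x² - 5 y⁴ = ± 4`**: `|y| ∈ {0, 1, 12}`. -/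
theorem quartic_one {x y : ℤ} (h : x ^ 2 - 5 * y ^ 4 = 4 ∨ x ^ 2 - 5 * y ^ 4 = -4) :
    |y| = 0 ∨ |y| = 1 ∨ |y| = 12 := by
  obtain ⟨n, -, hn⟩ := exists_lucas_abs (x := x) (y := y ^ 2) (by
    rw [show (y ^ 2) ^ 2 = y ^ 4 by ring]
    exact h)
  rw [abs_of_nonneg (sq_nonneg y)] at hn
  rcases fib_sq hn.symm with rfl | rfl | rfl | rfl
  · exact Or.inl (natAbs_cases le_rfl (by rw [hn, F_zero]; norm_num))
  · exact Or.inr (Or.inl (natAbs_cases (by norm_num) (by rw [hn, F_one]; norm_num)))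
  · exact Or.inr (Or.inl (natAbs_cases (by norm_num) (by rw [hn, F_two]; norm_num)))
  · exact Or.inr (Or.inr (natAbs_cases (by norm_num) (by rw [hn, F_twelve]; norm_num)))

/-- **The equations `x⁴ - 5 y² = ± 4`**: `|x| ∈ {1, 2}`. -/
theorem quartic_two {x y : ℤ} (h : x ^ 4 - 5 * y ^ 2 = 4 ∨ x ^ 4 - 5 * y ^ 2 = -4) :
    |x| = 1 ∨ |x| = 2 := by
  obtain ⟨n, hn, -⟩ := exists_lucas_abs (x := x ^ 2) (y := y) (by
    rw [show (x ^ 2) ^ 2 = x ^ 4 by ring]
    exact h)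
  rw [abs_of_nonneg (sq_nonneg x)] at hn
  rcases lucas_sq hn.symm with rfl | rfl
  · exact Or.inl (natAbs_cases (by norm_num) (by rw [hn, L_one]; norm_num))
  · exact Or.inr (natAbs_cases (by norm_num) (by rw [hn, L_three]; norm_num))

/-- **The equations `x² - 20 y⁴ = ± 4`**: `|y| ∈ {0, 1, 2}`. -/
theorem quartic_three {x y : ℤ} (h : x ^ 2 - 20 * y ^ 4 = 4 ∨ x ^ 2 - 20 * y ^ 4 = -4) :
    |y| = 0 ∨ |y| = 1 ∨ |y| = 2 := by
  obtain ⟨n, -, hn⟩ := exists_lucas_abs (x := x) (y := 2 * y ^ 2) (by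
    rw [show 5 * (2 * y ^ 2) ^ 2 = 20 * y ^ 4 by ring]
    exact h)
  rw [abs_of_nonneg (by positivity)] at hn
  rcases fib_two_sq hn.symm with rfl | rfl | rfl
  · exact Or.inl (natAbs_cases le_rfl (by rw [F_zero] at hn; linarith))
  · exact Or.inr (Or.inl (natAbs_cases (by norm_num) (by rw [F_three] at hn; linarith)))
  · exact Or.inr (Or.inr (natAbs_cases (by norm_num) (by rw [F_six] at hn; linarith)))

/-- **The equations `4 x⁴ - 5 y² = ± 4`**: `|x| ∈ {1, 3}`. -/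
theorem quartic_four {x y : ℤ} (h : 4 * x ^ 4 - 5 * y ^ 2 = 4 ∨ 4 * x ^ 4 - 5 * y ^ 2 = -4) :
    |x| = 1 ∨ |x| = 3 := by
  obtain ⟨n, hn, -⟩ := exists_lucas_abs (x := 2 * x ^ 2) (y := y) (by
    rw [show (2 * x ^ 2) ^ 2 = 4 * x ^ 4 by ring]
    exact h)
  rw [abs_of_nonneg (by positivity)] at hn
  rcases lucas_two_sq hn.symm with rfl | rfl
  · exact Or.inl (natAbs_cases (by norm_num) (by rw [L_zero] at hn; linarith))
  · exact Or.inr (natAbs_cases (by norm_num) (by rw [L_six] at hn; linarith))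

end Fermat.Agent.Cor.Cohn
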