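/-
Even Fibonacci numbers and even triangular numbers which are perfect powers (helper47).
-/
import Fermat.Agent.Corollaries.Cohn.Main
import Fermat.Agent.Corollaries.Cannon.Prod
import Fermat.Agent.Corollaries.K4.Small.PPTwo

/-!
# Even Fibonacci numbers and even triangular numbers which are perfect powers

The elementary theorems of J. H. E. Cohn (squares) and L. Euler (cubes) together with the theorems
of `K4/Small/PPTwo` (the modular method, exponents divisible by `7`, `11` or a prime `≥ 17`).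

* `even_fib_eq_pow`: if `F_k > 0` is even and `F_k = m ^ n`, `n ≥ 2`, then `F_k = F_12 = 12 ^ 2`, or
  all the prime divisors of `n` are among `3, 5, 13`.
* `even_triangular_eq_pow`: if `k (k + 1) / 2 = w ^ n` with `w > 0` even, `n > 0`, then `n` divides a
  number `2 · 5 ^ a · 13 ^ b`: the prime divisors of `n` are among `2, 5, 13`, and `4 ∤ n`.
-/

namespace Fermat.Agent.Cor.Cohn

theorem eq_of_pow_eq_twelve {m j : ℕ} (h : m ^ j = 12) : m = 12 ∧ j = 1 := by
  have hj0 : j ≠ 0 := by rintro rfl; simp at h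
  rcases Nat.lt_or_ge j 2 with hj | hj
  · have : j = 1 := by omega
    subst this
    exact ⟨by simpa using h, rfl⟩
  · exfalso
    have hm : m ≤ 3 := by
      by_contra hc
      push Not at hc
      have h1 : 4 ^ 2 ≤ m ^ j :=
        (Nat.pow_le_pow_left hc 2).trans (Nat.pow_le_pow_right (by omega) hj)
      omega
    have h3 : 3 ∣ m ^ j := by rw [h]; norm_num
    have h2 : 2 ∣ m ^ j := by rw [h]; norm_num
    have h3' := Nat.prime_three.dvd_of_dvd_pow h3
    have h2' := Nat.prime_two.dvd_of_dvd_pow h2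
    have hm0 : m ≠ 0 := by
      rintro rfl
      rw [zero_pow hj0] at h
      omega
    omega

/-- **Even Fibonacci numbers which are perfect powers**: `F_12 = 12²`, or all the prime divisors
of the exponent are among `3, 5, 13`. -/
theorem even_fib_eq_pow {k m n : ℕ} (hk : 0 < k) (he : 2 ∣ Nat.fib k) (hn : 2 ≤ n)
    (h : Nat.fib k = m ^ n) :
    (k = 12 ∧ m = 12 ∧ n = 2) ∨ ∀ p : ℕ, p.Prime → p ∣ n → p = 3 ∨ p = 5 ∨ p = 13 := by
  by_cases h2 : 2 ∣ n
  · left
    obtain ⟨j, rfl⟩ := h2
    have hsq : IsSquare (Nat.fib k) := ⟨m ^ j, by rw [h]; ring⟩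
    have hk' : k = 12 := by
      rcases (fib_sq_iff k).1 hsq with h1 | h1 | h1 | h1
      · omega
      · rw [h1] at he; simp at he
      · rw [h1] at he; simp at he
      · exact h1
    subst hk'
    have h3 : (m ^ j) ^ 2 = 12 ^ 2 := by
      rw [← pow_mul, mul_comm j 2, ← h]
      rfl
    have h4 := Nat.pow_left_injective two_ne_zero h3
    obtain ⟨h5, h6⟩ := eq_of_pow_eq_twelve h4
    exact ⟨rfl, h5, by omega⟩
  · right
    intro p hp hpn
    by_contra hc
    push Not at hc
    obtain ⟨h3, h5, h13⟩ := hc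
    have hp2 : p ≠ 2 := by rintro rfl; exact h2 hpn
    have h7 : p = 7 ∨ p = 11 ∨ 17 ≤ p := by
      by_contra hc
      push Not at hc
      obtain ⟨a, b, c⟩ := hc
      have := hp.two_le
      interval_cases p <;> first | omega | (exact absurd hp (by decide))
    exact PPS.fib_ne_pow hp h7 hpn hk he m h

/-- **Even triangular numbers which are perfect powers**: the prime divisors of the exponent are
among `2, 5, 13`, and `4` does not divide it. -/
theorem even_triangular_eq_pow {k w n : ℕ} (hw : w ≠ 0) (hw2 : 2 ∣ w) (hn : n ≠ 0)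
    (h : k * (k + 1) = 2 * w ^ n) :
    ¬ 4 ∣ n ∧ ∀ p : ℕ, p.Prime → p ∣ n → p = 2 ∨ p = 5 ∨ p = 13 := by
  have hsum : ∑ i ∈ Finset.range (k + 1), i = w ^ n := by
    have := Cannon.two_mul_sum k
    omega
  have hwn : 2 ≤ w ^ n := by
    have h1 : 2 ≤ w := Nat.le_of_dvd (Nat.pos_of_ne_zero hw) hw2
    exact h1.trans (Nat.le_self_pow hn w)
  have hk1 : ¬ k ≤ 1 := by
    intro hk
    have : k * (k + 1) ≤ 1 * (1 + 1) := Nat.mul_le_mul hk (by omega)
    omega
  refine ⟨fun h4 => hk1 (Cannon.sum_eq_pow (Or.inr h4) hsum), fun p hp hpn => ?_⟩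
  by_contra hc
  push Not at hc
  obtain ⟨h2, h5, h13⟩ := hc
  have h3 : p ≠ 3 := by
    rintro rfl
    exact hk1 (Cannon.sum_eq_pow (Or.inl hpn) hsum)
  have h7 : p = 7 ∨ p = 11 ∨ 17 ≤ p := by
    by_contra hc
    push Not at hc
    obtain ⟨a, b, c⟩ := hc
    have := hp.two_le
    interval_cases p <;> first | omega | (exact absurd hp (by decide))
  refine PPS.triangular_ne_pow hp h7 hpn hn (k := (k : ℤ)) (w := (w : ℤ)) (by exact_mod_cast hw)
    (by exact_mod_cast hw2) ?_
  exact_mod_cast h

end Fermat.Agent.Cor.Cohn
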